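/-
Programme ORD (S33), chapter INSTN (helper7): **abstract coordinate systems on the kernel of reduction
and the generators `τ_i` of the Hopf order of `M⁰`** (port of `FF/INST/Gen0` WITHOUT lifts and without
any reduction datum).

Everything downstream of KERN only sees the parametrisation `kap : m_A^g → X` (`X = Pic0 (F / L)`) of the
kernel of reduction: it is injective, `kap 0 = 0`, its range is closed under (three-fold) sums, and it
is equivariant for the inertia-type group `Γ` fixing the coordinate system.  We axiomatise exactly this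
(`KapSys`, `GalAct`), so that GLUEN/INSTN do not depend on the shape of the semistable datum; the
instance for `KERN/KerDefs9.NSSystemN.kap` is supplied by KERN (`kap_injective`, `AddN`, `KerGalN`).

* `mA A`, `KapSys A g X`, `gA`, `gVec`, `GalAct K Γ`;
* `SettingN K Γ M act` : a Galois action + a finite `Γ`-module `M` embedded equivariantly in `range kap`
  (`SettingN.ofSubgroup` : the case of a `Γ`-stable finite subgroup of `X`);
* `tauV`, `tau i : M → L`, `gens = range tau`; `gens_finite`, `gens_int`, `gens_mem_mA`, `gens_eqv`,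
  `gens_sep` (the fields `fin`, `int`, `eqv`, `sep` of `FF/BASE/ApproxGen2.ApproxGen`, and the extra
  information that ALL generators are `m_A`-valued).
-/
import Mathlib
import Fermat.Agent.FF.BASE.ApproxGen2

set_option autoImplicit false
set_option linter.unusedSectionVars false
set_option linter.style.longLine false

namespace Fermat.Agent.ORD.INSTN.KapSys7

noncomputable section

variable {L : Type} [Field L]

/-- the maximal ideal of `A`, as a type. -/
abbrev mA (A : ValuationSubring L) : Type := ↥(IsLocalRing.maximalIdeal A)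

theorem not_isUnit_of_mA {A : ValuationSubring L} (c : mA A) : ¬ IsUnit (c : A) := by
  have := c.2
  rwa [IsLocalRing.mem_maximalIdeal, mem_nonunits_iff] at this

/-- **An abstract coordinate system**: an injective parametrisation `kap : m_A^g → X` with `kap 0 = 0`
whose range is closed under three-fold sums. -/
structure KapSys (A : ValuationSubring L) (g : ℕ) (X : Type) [AddCommGroup X] where
  kap : (Fin g → mA A) → X
  inj : Function.Injective kap
  zero : kap 0 = 0
  add3 : ∀ T T' δ : Fin g → mA A, ∃ T'' : Fin g → mA A, kap T + kap T' + kap δ = kap T''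

variable {A : ValuationSubring L} {g : ℕ} {X : Type} [AddCommGroup X]

/-- two-fold sums. -/
theorem KapSys.add2 (K : KapSys A g X) (T T' : Fin g → mA A) :
    ∃ T'' : Fin g → mA A, K.kap T + K.kap T' = K.kap T'' := by
  obtain ⟨T'', h⟩ := K.add3 T T' 0
  rw [K.zero, add_zero] at h
  exact ⟨T'', h⟩

/-! ### the action of `Γ` on `A` -/

variable {Γ : Type} [Group Γ] [MulSemiringAction Γ L]

/-- the automorphism of `A` induced by `γ`. -/
def gA (hΓA : ∀ (γ : Γ) (a : L), a ∈ A → γ • a ∈ A) (γ : Γ) : A ≃+* A where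
  toFun a := ⟨γ • (a : L), hΓA γ a a.2⟩
  invFun a := ⟨γ⁻¹ • (a : L), hΓA γ⁻¹ a a.2⟩
  left_inv a := Subtype.ext (inv_smul_smul γ (a : L))
  right_inv a := Subtype.ext (smul_inv_smul γ (a : L))
  map_mul' a b := Subtype.ext (smul_mul' γ (a : L) (b : L))
  map_add' a b := Subtype.ext (smul_add γ (a : L) (b : L))

@[simp] theorem coe_gA (hΓA : ∀ (γ : Γ) (a : L), a ∈ A → γ • a ∈ A) (γ : Γ) (a : A) :
    ((gA hΓA γ a : A) : L) = γ • (a : L) := rfl

theorem gA_mem_iff (hΓA : ∀ (γ : Γ) (a : L), a ∈ A → γ • a ∈ A) (γ : Γ) (a : A) :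
    a ∈ IsLocalRing.maximalIdeal A ↔ gA hΓA γ a ∈ IsLocalRing.maximalIdeal A := by
  rw [IsLocalRing.mem_maximalIdeal, IsLocalRing.mem_maximalIdeal, mem_nonunits_iff,
    mem_nonunits_iff, not_iff_not]
  exact (isUnit_map_iff (gA hΓA γ) a).symm

/-- conjugate of a coordinate vector. -/
def gVec (hΓA : ∀ (γ : Γ) (a : L), a ∈ A → γ • a ∈ A) (γ : Γ) (T : Fin g → mA A) :
    Fin g → mA A :=
  fun l => ⟨gA hΓA γ (T l : A), (gA_mem_iff hΓA γ _).mp (T l).2⟩

@[simp] theorem coe_gVec (hΓA : ∀ (γ : Γ) (a : L), a ∈ A → γ • a ∈ A) (γ : Γ)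
    (T : Fin g → mA A) (l : Fin g) :
    (((gVec hΓA γ T l : mA A) : A) : L) = γ • (((T l : mA A) : A) : L) := rfl

/-- **A Galois action compatible with the coordinate system**: `Γ` preserves `A`, acts additively on
`X`, and `kap` is equivariant. -/
structure GalAct (K : KapSys A g X) (Γ : Type) [Group Γ] [MulSemiringAction Γ L] where
  hΓA : ∀ (γ : Γ) (a : L), a ∈ A → γ • a ∈ A
  actX : Γ → X → X
  actX_add : ∀ (γ : Γ) (x y : X), actX γ (x + y) = actX γ x + actX γ y
  actX_kap : ∀ (γ : Γ) (T : Fin g → mA A), actX γ (K.kap T) = K.kap (gVec hΓA γ T)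

/-- **The setting of the instantiation on the kernel of reduction**: a compatible Galois action and a
finite `Γ`-module `M` (with action `act`) embedded equivariantly into the range of `kap`.
(`M` and `act` are parameters so that the output is literally about the consumer's module.) -/
structure SettingN (K : KapSys A g X) (Γ : Type) [Group Γ] [MulSemiringAction Γ L]
    (M : Type) [AddCommGroup M] (act : Γ → M → M) extends GalAct K Γ where
  finM : Finite M
  emb : M →+ X
  emb_inj : Function.Injective emb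
  emb_act : ∀ (γ : Γ) (x : M), emb (act γ x) = actX γ (emb x)
  hM : ∀ x : M, ∃ T : Fin g → mA A, K.kap T = emb x

/-- the special case of a `Γ`-stable finite subgroup of the range of `kap`. -/
def SettingN.ofSubgroup {K : KapSys A g X} (Z : GalAct K Γ) (M : AddSubgroup X) (finM : Finite M)
    (stab : ∀ (γ : Γ), ∀ x ∈ M, Z.actX γ x ∈ M)
    (hM : ∀ x ∈ M, ∃ T : Fin g → mA A, K.kap T = x) :
    SettingN K Γ M (fun γ x => ⟨Z.actX γ (x : X), stab γ x.1 x.2⟩) where
  toGalAct := Z
  finM := finM
  emb := M.subtype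
  emb_inj := Subtype.val_injective
  emb_act := fun _ _ => rfl
  hM := fun x => hM x.1 x.2

variable {K : KapSys A g X} {M : Type} [AddCommGroup M] {act : Γ → M → M}
  (Z : SettingN K Γ M act)

namespace SettingN

include Z in
theorem finite : Finite M := Z.finM

/-- the coordinates `τ(x) ∈ m_A^g` of `x ∈ M`. -/
def tauV (x : M) : Fin g → mA A := (Z.hM x).choose

theorem kap_tauV (x : M) : K.kap (Z.tauV x) = Z.emb x := (Z.hM x).choose_spec

theorem tauV_eq_of_kap {x : M} {T : Fin g → mA A} (h : K.kap T = Z.emb x) : Z.tauV x = T :=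
  K.inj (by rw [Z.kap_tauV, h])

/-- the coordinate functions `τ_i : M → L`. -/
def tau (i : Fin g) (x : M) : L := ((Z.tauV x i : A) : L)

/-- **the generators**: the coordinate functions. -/
def gens : Set (M → L) := Set.range Z.tau

theorem gens_finite : Z.gens.Finite := Set.finite_range _

theorem tau_mem_gens (i : Fin g) : Z.tau i ∈ Z.gens := ⟨i, rfl⟩

/-- all generators are `m_A`-valued. -/
theorem gens_mem_mA : ∀ s ∈ Z.gens, ∀ x, ∃ c : mA A, s x = ((c : A) : L) := by
  rintro s ⟨i, rfl⟩ x
  exact ⟨Z.tauV x i, rfl⟩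

/-- `int`: the generators take values in `A`. -/
theorem gens_int : ∀ s ∈ Z.gens, ∀ x, s x ∈ A.toSubring := by
  rintro s ⟨i, rfl⟩ x
  exact (Z.tauV x i : A).2

/-- equivariance of the coordinates. -/
theorem tauV_act (γ : Γ) (x : M) : Z.tauV (act γ x) = gVec Z.hΓA γ (Z.tauV x) := by
  apply Z.tauV_eq_of_kap
  rw [← Z.actX_kap, Z.kap_tauV, Z.emb_act]

theorem tau_act (i : Fin g) (γ : Γ) (x : M) : Z.tau i (act γ x) = γ • Z.tau i x := by
  unfold tau
  rw [Z.tauV_act]
  rfl

/-- `eqv`: the generators are `Γ`-equivariant. -/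
theorem gens_eqv : ∀ s ∈ Z.gens, ∀ (γ : Γ) (x : M), s (act γ x) = γ • s x := by
  rintro s ⟨i, rfl⟩ γ x
  exact Z.tau_act i γ x

/-- `sep`: the generators separate the points of `M`. -/
theorem gens_sep : ∀ x x' : M, (∀ s ∈ Z.gens, s x = s x') → x = x' := by
  intro x x' h
  have ht : Z.tauV x = Z.tauV x' := by
    funext i
    apply Subtype.ext
    apply Subtype.ext
    exact h _ (Z.tau_mem_gens i)
  apply Z.emb_inj
  rw [← Z.kap_tauV x, ht, Z.kap_tauV x']

/-- the coordinates of a sum. -/
theorem kap_tauV_add (x x' : M) :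
    K.kap (Z.tauV x) + K.kap (Z.tauV x') + K.kap 0 = K.kap (Z.tauV (x + x')) := by
  rw [Z.kap_tauV, Z.kap_tauV, Z.kap_tauV, K.zero, add_zero, map_add]

end SettingN

end

end Fermat.Agent.ORD.INSTN.KapSys7
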