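/-
Programme ORD (S33), chapter INSTN (helper7): **the approximate comultiplication of the coordinates
`τ_i` on `M⁰ ≤ ker(red)`** and the assembly of `ApproxGen` (port of `FF/INST/Comul0` to the abstract
coordinate systems of `KapSys7`; no indicator functions: only the identity class is present, so ALL
generators are `m_A`-valued).

* `pairVal`, `FGOutN K W` : the output of F5 in valuation-ring form (verbatim `Comul0.FGOut`);
* `exists_bound`, `aeval_mem_tensorSpan`, `approxComul_tau`;
* `approxGen : FGOutN K W → ApproxGen W A.toSubring act Z.gens`;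
* `exists_approxGen` : the packaged output `∃ S0, ApproxGen W A act S0 ∧ ∀ s ∈ S0, ∀ m, s m ∈ m_A`.
-/
import Mathlib
import Fermat.Agent.ORD.INSTN.KapSys7

set_option autoImplicit false
set_option linter.unusedSectionVars false
set_option linter.style.longLine false

namespace Fermat.Agent.ORD.INSTN.ComulN7

open Fermat.Agent.ORD.INSTN.KapSys7 Fermat.Agent.FF.BASE.ApproxGen2

noncomputable section

variable {L : Type} [Field L] {A : ValuationSubring L} {g : ℕ} {X : Type} [AddCommGroup X]

/-- the pair of coordinate vectors as a valuation of the variables `Fin g ⊕ Fin g`. -/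
def pairVal (T T' : Fin g → mA A) : Fin g ⊕ Fin g → L :=
  Sum.elim (fun j => ((T j : A) : L)) (fun j => ((T' j : A) : L))

/-- **(FG-out)**, the output of F5, in valuation-ring form. -/
def FGOutN (K : KapSys A g X) (W : Type) [CommRing W] [Algebra W L] : Prop :=
  ∀ δ : Fin g → mA A, (∀ i, ∃ w : W, algebraMap W L w = ((δ i : A) : L)) →
    ∀ a : A, ¬ IsUnit a → ∀ w : W, w ≠ 0 →
      ∃ p : Fin g → MvPolynomial (Fin g ⊕ Fin g) W,
        ∀ T T' T'' : Fin g → mA A,
          (∀ i, ∃ b : A, (T i : A) = a * b) → (∀ i, ∃ b : A, (T' i : A) = a * b) →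
          K.kap T + K.kap T' + K.kap δ = K.kap T'' →
          ∀ i, ∃ b : A, ((T'' i : A) : L) - MvPolynomial.aeval (pairVal T T') (p i)
            = algebraMap W L w * (b : L)

/-- finitely many non-units of a valuation ring have a common non-unit divisor. -/
theorem exists_bound {R : Type*} [CommRing R] [IsDomain R] [ValuationRing R] (s : Finset R)
    (hs : ∀ b ∈ s, ¬ IsUnit b) : ∃ a : R, ¬ IsUnit a ∧ ∀ b ∈ s, a ∣ b := by
  classical
  induction s using Finset.induction_on with
  | empty => exact ⟨0, not_isUnit_zero, fun b hb => absurd hb (Finset.notMem_empty b)⟩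
  | insert c s hc ih =>
    obtain ⟨a, ha, hab⟩ := ih fun b hb => hs b (Finset.mem_insert_of_mem hb)
    rcases ValuationRing.dvd_total a c with h | h
    · refine ⟨a, ha, fun b hb => ?_⟩
      rcases Finset.mem_insert.mp hb with rfl | hb
      · exact h
      · exact hab b hb
    · refine ⟨c, hs c (Finset.mem_insert_self c s), fun b hb => ?_⟩
      rcases Finset.mem_insert.mp hb with rfl | hb
      · exact dvd_rfl
      · exact h.trans (hab b hb)

variable {K : KapSys A g X} {Γ : Type} [Group Γ] [MulSemiringAction Γ L]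
  {M : Type} [AddCommGroup M] {act : Γ → M → M} (Z : SettingN K Γ M act)
variable {W : Type} [CommRing W] [Algebra W L]

/-- polynomial expressions in the coordinates of `x` and `x'` lie in `W[S] ⊗ W[S]`. -/
theorem aeval_mem_tensorSpan (q : MvPolynomial (Fin g ⊕ Fin g) W) :
    (fun p : M × M => MvPolynomial.aeval (pairVal (Z.tauV p.1) (Z.tauV p.2)) q)
      ∈ tensorSpan W Z.gens := by
  induction q using MvPolynomial.induction_on with
  | C w =>
    have : (fun p : M × M => MvPolynomial.aeval (pairVal (Z.tauV p.1) (Z.tauV p.2))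
        (MvPolynomial.C w : MvPolynomial (Fin g ⊕ Fin g) W)) = w • (1 : M × M → L) := by
      funext p
      rw [MvPolynomial.aeval_C, Pi.smul_apply, Pi.one_apply, Algebra.smul_def, mul_one]
    rw [this]
    exact Submodule.smul_mem _ w (one_mem_tensorSpan _)
  | add q q' hq hq' =>
    have : (fun p : M × M => MvPolynomial.aeval (pairVal (Z.tauV p.1) (Z.tauV p.2)) (q + q'))
        = (fun p : M × M => MvPolynomial.aeval (pairVal (Z.tauV p.1) (Z.tauV p.2)) q)
          + (fun p : M × M => MvPolynomial.aeval (pairVal (Z.tauV p.1) (Z.tauV p.2)) q') := by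
      funext p
      rw [map_add, Pi.add_apply]
    rw [this]
    exact Submodule.add_mem _ hq hq'
  | mul_X q j hq =>
    have hX : (fun p : M × M => MvPolynomial.aeval (pairVal (Z.tauV p.1) (Z.tauV p.2))
        (MvPolynomial.X j : MvPolynomial (Fin g ⊕ Fin g) W)) ∈ tensorSpan W Z.gens := by
      rcases j with j | j
      · have : (fun p : M × M => MvPolynomial.aeval (pairVal (Z.tauV p.1) (Z.tauV p.2))
            (MvPolynomial.X (Sum.inl j) : MvPolynomial (Fin g ⊕ Fin g) W))
            = tens (Z.tau j) (1 : M → L) := by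
          funext p
          rw [MvPolynomial.aeval_X, tens_apply, Pi.one_apply, mul_one]
          rfl
        rw [this]
        exact tens_mem_tensorSpan (Algebra.subset_adjoin (Z.tau_mem_gens j)) (Subalgebra.one_mem _)
      · have : (fun p : M × M => MvPolynomial.aeval (pairVal (Z.tauV p.1) (Z.tauV p.2))
            (MvPolynomial.X (Sum.inr j) : MvPolynomial (Fin g ⊕ Fin g) W))
            = tens (1 : M → L) (Z.tau j) := by
          funext p
          rw [MvPolynomial.aeval_X, tens_apply, Pi.one_apply, one_mul]
          rfl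
        rw [this]
        exact tens_mem_tensorSpan (Subalgebra.one_mem _) (Algebra.subset_adjoin (Z.tau_mem_gens j))
    have : (fun p : M × M => MvPolynomial.aeval (pairVal (Z.tauV p.1) (Z.tauV p.2))
        (q * MvPolynomial.X j))
        = (fun p : M × M => MvPolynomial.aeval (pairVal (Z.tauV p.1) (Z.tauV p.2)) q)
          * (fun p : M × M => MvPolynomial.aeval (pairVal (Z.tauV p.1) (Z.tauV p.2))
            (MvPolynomial.X j : MvPolynomial (Fin g ⊕ Fin g) W)) := by
      funext p
      rw [map_mul, Pi.mul_apply]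
    rw [this]
    exact tensorSpan_mul hq hX

/-- **the approximate comultiplication of `τ_i`** from (FG-out) (with `δ = 0`). -/
theorem approxComul_tau (hFG : FGOutN K W) (i : Fin g) (w : W) (hw : w ≠ 0) :
    ApproxComul W A.toSubring Z.gens w (Z.tau i) := by
  classical
  have := Z.finM
  haveI : Fintype M := Fintype.ofFinite _
  -- a common bound for all coordinates
  obtain ⟨a, ha, hab⟩ := exists_bound
    (Finset.univ.image fun q : M × Fin g => (Z.tauV q.1 q.2 : A)) (by
      intro b hb
      obtain ⟨q, _, rfl⟩ := Finset.mem_image.mp hb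
      exact not_isUnit_of_mA _)
  have hbound : ∀ (x : M) (j : Fin g), ∃ b : A, (Z.tauV x j : A) = a * b := fun x j =>
    hab _ (Finset.mem_image.mpr ⟨(x, j), Finset.mem_univ _, rfl⟩)
  -- the polynomials
  obtain ⟨poly, hpoly⟩ := hFG 0 (fun j => ⟨0, by rw [map_zero]; rfl⟩) a ha w hw
  refine ⟨fun p => MvPolynomial.aeval (pairVal (Z.tauV p.1) (Z.tauV p.2)) (poly i),
    aeval_mem_tensorSpan Z (poly i), fun p => ?_⟩
  obtain ⟨b, hb⟩ := hpoly (Z.tauV p.1) (Z.tauV p.2) (Z.tauV (p.1 + p.2))
    (hbound p.1) (hbound p.2) (Z.kap_tauV_add p.1 p.2) i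
  exact ⟨(b : L), b.2, hb⟩

/-- **The coordinates `{τ_i}` form an approximate Hopf generating set.** -/
theorem approxGen (hFG : FGOutN K W) : ApproxGen W A.toSubring act Z.gens where
  fin := Z.gens_finite
  int := Z.gens_int
  eqv := Z.gens_eqv
  sep := Z.gens_sep
  comul := by
    rintro s ⟨i, rfl⟩ w hw
    exact approxComul_tau Z hFG i w hw

include Z in
/-- **the packaged output**: an approximate Hopf generating set all of whose elements are
`m_A`-valued. -/
theorem exists_approxGen (hFG : FGOutN K W) :
    ∃ S0 : Set (M → L), ApproxGen W A.toSubring act S0 ∧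
      ∀ s ∈ S0, ∀ x : M, ∃ c : mA A, s x = ((c : A) : L) :=
  ⟨Z.gens, approxGen Z hFG, Z.gens_mem_mA⟩

end

end Fermat.Agent.ORD.INSTN.ComulN7
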