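/-
Programme ORD (S33), chapter INSTN (helper7): **the coordinate system of a non-special system on a
semistable datum** as an instance of the abstract `KapSys7.KapSys` / `GalAct` / `SettingN`
(consumes helper9's KERN: `KerN9.kap_injective`, `kerRed`, `kerEquiv`, `KerGalN9.smul_kap`).

* `kapSys S hRR : KapSys 𝔻.B.A g (Pic0 L F)` (`kap := S.kap`);
* `galAct S hRR ρ base hΓA compat fixes : GalAct (kapSys S hRR) Γ` for a group `Γ` acting on `L` and, through
  `ρ : Γ →* SemilinearAut L F`, semilinearly on `F`, permuting the fibres of the specialisation and fixing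
  the centres and the uniformizers of `S`;
* `smul_mem_kerRed` : `kerRed 𝔻` is `Γ`-stable;
* `settingN` : the setting on a finite `Γ`-module `M` embedded equivariantly in `kerRed 𝔻`;
* `exists_approxGen_kerRed` : from `PSOutN (kapSys S hRR)` (the output of FAMN) to
  `∃ S0, ApproxGen W A act S0 ∧ ∀ s ∈ S0, ∀ m, s m ∈ m_A` — the input of `ORD/CONN/ConnWur6`.
-/
import Mathlib
import Fermat.Agent.ORD.KERN.KerGalN9
import Fermat.Agent.ORD.GLUEN.RationalN7

set_option autoImplicit false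
set_option linter.unusedSectionVars false
set_option linter.style.longLine false

namespace Fermat.Agent.ORD.INSTN.KapInst7

open AlgebraicCurve Fermat.Agent.X0.FF Fermat.Agent.RR.LSpace Fermat.Agent.MW.EMB.Value6
open Fermat.Agent.ORD.SEMIRED.SemiRedDatum9
open Fermat.Agent.ORD.KERN.KerDefs9 Fermat.Agent.ORD.KERN.KerN9 Fermat.Agent.ORD.KERN.KerGalN9
open Fermat.Agent.ORD.INSTN.KapSys7 Fermat.Agent.ORD.INSTN.ComulN7
open Fermat.Agent.ORD.GLUEN.RationalN7

noncomputable section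

variable {L F : Type} {k Ft : Type*} [Field L] [Field F] [Algebra L F] [Field k] [Field Ft]
  [Algebra k Ft]
variable {ι E : Type*} {𝔻 : SemiRedDatum L F k Ft ι E} {g : ℕ} [Finite ι] [Nonempty ι]

/-- **the coordinate system of a non-special system.** -/
def kapSys (S : NSSystemN 𝔻 g)
    (hRR : ∀ E' : Divisor L F, Divisor.degree E' = g → ∃ f : F, f ≠ 0 ∧ ∀ P, -(E' P) ≤ P.ord f) :
    KapSys 𝔻.B.A g (Pic0 L F) where
  kap := S.kap
  inj := kap_injective S
  zero := S.kap_zero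
  add3 := fun T T' δ => by
    have hmem : S.kap T + S.kap T' + S.kap δ ∈ kerRed 𝔻 :=
      (kerRed 𝔻).add_mem ((kerRed 𝔻).add_mem (kap_mem_kerRed S T) (kap_mem_kerRed S T'))
        (kap_mem_kerRed S δ)
    refine ⟨(kerEquiv S hRR).symm ⟨_, hmem⟩, ?_⟩
    have h := (kerEquiv S hRR).apply_symm_apply ⟨_, hmem⟩
    exact (congrArg Subtype.val h).symm

@[simp] theorem kapSys_kap (S : NSSystemN 𝔻 g)
    (hRR : ∀ E' : Divisor L F, Divisor.degree E' = g → ∃ f : F, f ≠ 0 ∧ ∀ P, -(E' P) ≤ P.ord f)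
    (T : Fin g → mA 𝔻.B.A) : (kapSys S hRR).kap T = S.kap T := rfl

/-- every element of the kernel of reduction has coordinates. -/
theorem exists_kap_of_mem_kerRed (S : NSSystemN 𝔻 g)
    (hRR : ∀ E' : Divisor L F, Divisor.degree E' = g → ∃ f : F, f ≠ 0 ∧ ∀ P, -(E' P) ≤ P.ord f)
    {x : Pic0 L F} (hx : x ∈ kerRed 𝔻) : ∃ T : Fin g → mA 𝔻.B.A, (kapSys S hRR).kap T = x := by
  obtain ⟨T, hT⟩ := (kerEquiv S hRR).surjective ⟨x, hx⟩
  exact ⟨T, congrArg Subtype.val hT⟩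

variable {Γ : Type} [Group Γ] [MulSemiringAction Γ L]

/-- **the Galois action on the coordinate system** of a `Γ`-fixed non-special system. -/
def galAct (S : NSSystemN 𝔻 g)
    (hRR : ∀ E' : Divisor L F, Divisor.degree E' = g → ∃ f : F, f ≠ 0 ∧ ∀ P, -(E' P) ≤ P.ord f)
    (ρ : Γ →* SemilinearAut L F)
    (base : ∀ (γ : Γ) (a : L), SemilinearAut.baseAut (ρ γ) a = γ • a)
    (hΓA : ∀ (γ : Γ) (a : L), a ∈ 𝔻.B.A → γ • a ∈ 𝔻.B.A)
    (compat : ∀ γ : Γ, DiscCompatN 𝔻 (ρ γ)) (fixes : ∀ γ : Γ, FixesN S (ρ γ)) :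
    GalAct (kapSys S hRR) Γ where
  hΓA := hΓA
  actX := fun γ x => ρ γ • x
  actX_add := fun γ x y => smul_add (ρ γ) x y
  actX_kap := fun γ T => smul_kap (compat γ) (fixes γ) (fun i => by
    rw [coe_gVec, base])

/-- the kernel of reduction is stable under a group fixing a non-special system. -/
theorem smul_mem_kerRed (S : NSSystemN 𝔻 g)
    (hRR : ∀ E' : Divisor L F, Divisor.degree E' = g → ∃ f : F, f ≠ 0 ∧ ∀ P, -(E' P) ≤ P.ord f)
    {γ : SemilinearAut L F} (hγ : DiscCompatN 𝔻 γ) (hS : FixesN S γ) {x : Pic0 L F}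
    (hx : x ∈ kerRed 𝔻) : γ • x ∈ kerRed 𝔻 := by
  obtain ⟨T, rfl⟩ := exists_kap_of_mem_kerRed S hRR hx
  choose T' hT' using fun j => exists_act hγ hS j (T j)
  rw [kapSys_kap, smul_kap hγ hS hT']
  exact kap_mem_kerRed S T'

/-- **the setting** on a finite `Γ`-module embedded equivariantly in the kernel of reduction. -/
def settingN (S : NSSystemN 𝔻 g)
    (hRR : ∀ E' : Divisor L F, Divisor.degree E' = g → ∃ f : F, f ≠ 0 ∧ ∀ P, -(E' P) ≤ P.ord f)
    (ρ : Γ →* SemilinearAut L F)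
    (base : ∀ (γ : Γ) (a : L), SemilinearAut.baseAut (ρ γ) a = γ • a)
    (hΓA : ∀ (γ : Γ) (a : L), a ∈ 𝔻.B.A → γ • a ∈ 𝔻.B.A)
    (compat : ∀ γ : Γ, DiscCompatN 𝔻 (ρ γ)) (fixes : ∀ γ : Γ, FixesN S (ρ γ))
    {M : Type} [AddCommGroup M] [Finite M] (act : Γ → M → M) (emb : M →+ Pic0 L F)
    (emb_inj : Function.Injective emb) (emb_act : ∀ (γ : Γ) (x : M), emb (act γ x) = ρ γ • emb x)
    (hker : ∀ x : M, emb x ∈ kerRed 𝔻) :
    SettingN (kapSys S hRR) Γ M act where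
  toGalAct := galAct S hRR ρ base hΓA compat fixes
  finM := inferInstance
  emb := emb
  emb_inj := emb_inj
  emb_act := emb_act
  hM := fun x => exists_kap_of_mem_kerRed S hRR (hker x)

/-- **from the power series of FAMN to the approximate Hopf generating set** on a finite `Γ`-module
embedded equivariantly in the kernel of reduction; all generators are `m_A`-valued. -/
theorem exists_approxGen_kerRed [Infinite 𝔻.B.A] {W : Type} [CommRing W] [Algebra W L]
    (S : NSSystemN 𝔻 g)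
    (hRR : ∀ E' : Divisor L F, Divisor.degree E' = g → ∃ f : F, f ≠ 0 ∧ ∀ P, -(E' P) ≤ P.ord f)
    (ρ : Γ →* SemilinearAut L F)
    (base : ∀ (γ : Γ) (a : L), SemilinearAut.baseAut (ρ γ) a = γ • a)
    (hΓA : ∀ (γ : Γ) (a : L), a ∈ 𝔻.B.A → γ • a ∈ 𝔻.B.A)
    (compat : ∀ γ : Γ, DiscCompatN 𝔻 (ρ γ)) (fixes : ∀ γ : Γ, FixesN S (ρ γ))
    {M : Type} [AddCommGroup M] [Finite M] (act : Γ → M → M) (emb : M →+ Pic0 L F)
    (emb_inj : Function.Injective emb) (emb_act : ∀ (γ : Γ) (x : M), emb (act γ x) = ρ γ • emb x)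
    (hker : ∀ x : M, emb x ∈ kerRed 𝔻)
    (hsmall : Fermat.Agent.FF.GLUE.UniqSeries7.Small (IsLocalRing.maximalIdeal 𝔻.B.A))
    (hrank : ∀ w : 𝔻.B.A, w ≠ 0 → ∀ c : 𝔻.B.A, ¬ IsUnit c → ∃ n : ℕ, c ^ n ∈ Ideal.span {w})
    (hWA : ∀ w : W, algebraMap W L w ∈ 𝔻.B.A) (hWinj : Function.Injective (algebraMap W L))
    (hWfix : ∀ a : 𝔻.B.A, (∀ γ : Γ, γ • (a : L) = (a : L)) → ∃ w : W, algebraMap W L w = (a : L))
    (hPS : PSOutN (kapSys S hRR)) :
    ∃ S0 : Set (M → L), Fermat.Agent.FF.BASE.ApproxGen2.ApproxGen W 𝔻.B.A.toSubring act S0 ∧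
      ∀ s ∈ S0, ∀ x : M, ∃ c : mA 𝔻.B.A, s x = ((c : 𝔻.B.A) : L) :=
  exists_approxGen_of_psOut
    (settingN S hRR ρ base hΓA compat fixes act emb emb_inj emb_act hker)
    hsmall hrank hWA hWinj hWfix hPS

end

end Fermat.Agent.ORD.INSTN.KapInst7
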