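/-
Programme ORD (S33), chapter INSTN (helper7): **abstract assembly on a semistable datum** (port of
`FF/INST/Main0` + `Main1`, identity class only: no lifts, no orbits).

From: a semistable datum `𝔻`, a group `Γ` ("inertia") acting semilinearly and trivially on the set of
residue discs and annuli, `Γ`-fixed functions whose reductions are uniformizers at all smooth points
off a finite set, the non-speciality of the inputs of (NS) (`NonSpecialN2.nonspecialN`), and the output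
of FAMN for `Γ`-fixed systems (`PSOutN`),
to: `ApproxGen W A act S0` with ALL generators `m_A`-valued on any finite `Γ`-module embedded
equivariantly in the kernel of reduction `KerN9.kerRed 𝔻` — the input of `ORD/CONN/ConnWur6`.

* `recentre` : change the centres and uniformizers of a non-special system inside the discs;
* `exists_fixed_centre` : the centre of a `Γ`-fixed function whose reduction is a uniformizer is
  `Γ`-fixed;
* `exists_admissible` : a `Γ`-fixed non-special system of `genus L F` centres;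
* `exists_approxGenN` : the approximate Hopf generating set over `Γ`.
-/
import Mathlib
import Fermat.Agent.ORD.INSTN.KapInst7
import Fermat.Agent.ORD.NSN.NSFinalN9
import Fermat.Agent.ORD.REDN.RedAutC5
import Fermat.Agent.FF.INST.RRInst0

set_option autoImplicit false
set_option linter.unusedSectionVars false
set_option linter.style.longLine false

namespace Fermat.Agent.ORD.INSTN.MainN7

open AlgebraicCurve Fermat.Agent.X0.FF Fermat.Agent.RR.LSpace Fermat.Agent.MW.EMB.Value6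
open Fermat.Agent.ORD.SEMIRED.SemiRedDatum9
open Fermat.Agent.ORD.KERN.KerDefs9 Fermat.Agent.ORD.KERN.KerN9 Fermat.Agent.ORD.KERN.KerGalN9
open Fermat.Agent.ORD.NSN.NSInputN9 Fermat.Agent.ORD.NSN.NSExistsN9
open Fermat.Agent.ORD.INSTN.KapSys7 Fermat.Agent.ORD.INSTN.KapInst7
open Fermat.Agent.ORD.GLUEN.RationalN7

noncomputable section

variable {L F : Type} {k Ft : Type*} [Field L] [Field F] [Algebra L F] [Field k] [Field Ft]
  [Algebra k Ft]
variable {ι E : Type*} {𝔻 : SemiRedDatum L F k Ft ι E} {g : ℕ}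

/-- change the centres and the uniformizers of a non-special system inside their discs. -/
def recentre (S : NSSystemN 𝔻 g) (P' : Fin g → Place L F) (u' : ∀ i, 𝔻.G (S.c i))
    (good' : ∀ i, (𝔻.comp (S.c i)).IsGoodUnif (P' i) (S.Q i) (u' i)) : NSSystemN 𝔻 g where
  c := S.c
  Q := S.Q
  P := P'
  u := u'
  good := good'
  inj := S.inj
  ns := S.ns
  c0 := S.c0
  Q0 := S.Q0
  sm0 := S.sm0
  hQ0 := S.hQ0

variable {Γ : Type} [Group Γ] (ρ : Γ →* SemilinearAut L F)

/-- the centre of a `Γ`-fixed function whose reduction is a uniformizer at the smooth point `(v, Q)`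
is a `Γ`-fixed place, and the function is a good uniformizer there. -/
theorem exists_fixed_centre (triv : ∀ (γ : Γ) (P : Place L F), 𝔻.r (ρ γ • P) = 𝔻.r P)
    {v : ι} {Q : Place k Ft} (hQ : 𝔻.IsSm v Q) (u : 𝔻.G v) (hpf : 𝔻.PoleFree (u : F) v Q)
    (h1 : Q.ord (𝔻.red v u) = 1) (hfix : ∀ γ : Γ, ρ γ • (u : F) = (u : F)) :
    ∃ P : Place L F, (𝔻.comp v).IsGoodUnif P Q u ∧ ∀ γ : Γ, ρ γ • P = P := by
  obtain ⟨P, hgood, -⟩ := Fermat.Agent.ORD.REDN.RedAutC5.exists_unique_isGoodUnif_of_ord_red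
    (D := 𝔻.comp v) u ((𝔻.comp_sm_iff).mpr hQ) ((𝔻.comp_poleFree_iff).mpr hpf) h1
  refine ⟨P, hgood, fun γ => ?_⟩
  by_contra hne
  have hr : (𝔻.comp v).r (ρ γ • P) = some Q := by
    rw [𝔻.comp_r_eq_some_iff, triv]
    exact (𝔻.comp_r_eq_some_iff).mp hgood.1
  have h0 := (hgood.2.2.2 (ρ γ • P) hr).2 hne
  have h2 : (ρ γ • P).ord (ρ γ • (u : F)) = P.ord (u : F) := SemilinearAut.ord_smul (ρ γ) P _
  rw [hfix γ, h0, hgood.2.1] at h2
  omega

variable [IsAlgClosed L] [CharZero L] {x : F} [HasCanonicalDivisor (K := L) (F := F)] [Infinite k]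
  [Finite ι] [Nonempty ι] [Finite E]

/-- **an admissible system**: a `Γ`-fixed non-special system of `genus L F` centres. -/
theorem exists_admissible (hx : IsGen L x) (hlink : DLink 𝔻)
    (hns : ∀ I : NSInputN 𝔻 (genus L F), I.IsNonSpecial)
    (triv : ∀ (γ : Γ) (P : Place L F), 𝔻.r (ρ γ • P) = 𝔻.r P)
    (Bad : Set (ι × Place k Ft)) (hBad : Bad.Finite)
    (hunif : ∀ (v : ι) (Q : Place k Ft), 𝔻.IsSm v Q → (v, Q) ∉ Bad →
      ∃ u : 𝔻.G v, 𝔻.PoleFree (u : F) v Q ∧ Q.ord (𝔻.red v u) = 1 ∧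
        ∀ γ : Γ, ρ γ • (u : F) = (u : F)) :
    ∃ S : NSSystemN 𝔻 (genus L F), ∀ γ : Γ, FixesN S (ρ γ) := by
  obtain ⟨S₁, hS₁, -⟩ := Fermat.Agent.ORD.NSN.NSFinalN9.exists_nsSystemN hx hlink hns Bad hBad
  have key : ∀ i, ∃ (P : Place L F) (u : 𝔻.G (S₁.c i)),
      (𝔻.comp (S₁.c i)).IsGoodUnif P (S₁.Q i) u ∧
      (∀ γ : Γ, ρ γ • P = P) ∧ ∀ γ : Γ, ρ γ • (u : F) = (u : F) := by
    intro i
    obtain ⟨u, hpf, h1, hfix⟩ := hunif _ _ (S₁.isSm_Q i) (hS₁ i)
    obtain ⟨P, hgood, hPfix⟩ := exists_fixed_centre ρ triv (S₁.isSm_Q i) u hpf h1 hfix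
    exact ⟨P, u, hgood, hPfix, hfix⟩
  choose P' u' good' hPfix hufix using key
  exact ⟨recentre S₁ P' u' good', fun γ => ⟨fun i => hPfix i γ, fun i => hufix i γ⟩⟩

variable [MulSemiringAction Γ L]

/-- **the approximate Hopf generating set over `Γ`** on a finite `Γ`-module embedded equivariantly in
the kernel of reduction; all generators are `m_A`-valued.  `hPS` is the output of FAMN (+ CloseGN). -/
theorem exists_approxGenN (hx : IsGen L x) (hlink : DLink 𝔻)
    (hns : ∀ I : NSInputN 𝔻 (genus L F), I.IsNonSpecial)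
    (base : ∀ (γ : Γ) (a : L), SemilinearAut.baseAut (ρ γ) a = γ • a)
    (triv : ∀ (γ : Γ) (P : Place L F), 𝔻.r (ρ γ • P) = 𝔻.r P)
    (Bad : Set (ι × Place k Ft)) (hBad : Bad.Finite)
    (hunif : ∀ (v : ι) (Q : Place k Ft), 𝔻.IsSm v Q → (v, Q) ∉ Bad →
      ∃ u : 𝔻.G v, 𝔻.PoleFree (u : F) v Q ∧ Q.ord (𝔻.red v u) = 1 ∧
        ∀ γ : Γ, ρ γ • (u : F) = (u : F))
    {M : Type} [AddCommGroup M] [Finite M] (act : Γ → M → M) (emb : M →+ Pic0 L F)
    (emb_inj : Function.Injective emb) (emb_act : ∀ (γ : Γ) (x : M), emb (act γ x) = ρ γ • emb x)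
    (hker : ∀ x : M, emb x ∈ kerRed 𝔻)
    [Infinite 𝔻.B.A] {W : Type} [CommRing W] [Algebra W L]
    (hΓA : ∀ (γ : Γ) (a : L), a ∈ 𝔻.B.A → γ • a ∈ 𝔻.B.A)
    (hsmall : Fermat.Agent.FF.GLUE.UniqSeries7.Small (IsLocalRing.maximalIdeal 𝔻.B.A))
    (hrank : ∀ w : 𝔻.B.A, w ≠ 0 → ∀ c : 𝔻.B.A, ¬ IsUnit c → ∃ n : ℕ, c ^ n ∈ Ideal.span {w})
    (hWA : ∀ w : W, algebraMap W L w ∈ 𝔻.B.A) (hWinj : Function.Injective (algebraMap W L))
    (hWfix : ∀ a : 𝔻.B.A, (∀ γ : Γ, γ • (a : L) = (a : L)) → ∃ w : W, algebraMap W L w = (a : L))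
    (hPS : ∀ S : NSSystemN 𝔻 (genus L F), (∀ γ : Γ, FixesN S (ρ γ)) →
      PSOutN (kapSys S (fun E' hE' => Fermat.Agent.FF.INST.RRInst0.hRR_of_isGen hx E' hE'))) :
    ∃ S0 : Set (M → L), Fermat.Agent.FF.BASE.ApproxGen2.ApproxGen W 𝔻.B.A.toSubring act S0 ∧
      ∀ s ∈ S0, ∀ m : M, ∃ c : mA 𝔻.B.A, s m = ((c : 𝔻.B.A) : L) := by
  obtain ⟨S, hS⟩ := exists_admissible ρ hx hlink hns triv Bad hBad hunif
  exact exists_approxGen_kerRed S _ ρ base hΓA
    (fun γ P P' h => by rw [triv γ P, triv γ P', h]) hS act emb emb_inj emb_act hker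
    hsmall hrank hWA hWinj hWfix (hPS S hS)

end

end Fermat.Agent.ORD.INSTN.MainN7
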